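import Fermat.Statements.S20
import Fermat.Agent.S20.H74_Final2
import Fermat.Agent.S20.H75_Glue
import Fermat.Agent.S20.H70_BDiv
import Fermat.Agent.S20.H19_Inf

/-!
# S20: `dim S₂(Γ₀(N)) = genusFormula N`

Assembly (helper74) of the S20 team's packages: `M_*(Γ₀(N))` is free over `ℂ[E₄, E₆]`
(helper25), local independence of the basis (helper53, helper61, helper70), rank = index
(helper86), weights and trace relations (helper89, helper44), duality (helper58), the cusp
filtration (helper19, helper2, helper44), the final count (helper74) and the coset
combinatorics and level one geometry (helper19, helper2, helper29, helper38, helper54, helper70,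
helper75).
-/

set_option autoImplicit false
open CuspForm

namespace Fermat.Agent.S20

theorem result (N : ℕ) [NeZero N] :
    (Module.finrank ℂ (CuspForm (CongruenceSubgroup.Gamma0 N) 2) : ℚ) = ModularCurve.genusFormula N :=
  H75.S20_of_core N
    (H74.core_of_div_inf H75.hgeo (CongruenceSubgroup.Gamma0 N) (H75.neg_one_mem N) (H75.hsep N)
      (fun _ _ hB hc hs => H70.B_div hB hc hs)
      (fun K hfin h => H19.INF1_eis K hfin h)
      (fun K hfin h => H19.INF2_adapted K hfin h))

end Fermat.Agent.S20
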