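import Fermat.Statements.S21
import Fermat.Agent.S21.H20_Final
import Fermat.Agent.S21.H20_E1
import Fermat.Agent.S20

/-!
# S21: the Eichler–Shimura period map is injective with image the parabolic homomorphisms

Assembly (helper20) of the S21 team's packages:
* part A (existence of equivariant primitives, helper20), part B (linearity, helper20),
* part C (periods are parabolic, helper86),
* part D (injectivity: maximum modulus core by helper78, glue by helper20),
* part E1 (`dim Hom_par ≤ 2g`: cocycle bound by helper75/helper69, coset combinatorics G1–G4
  by helper19, helper54, helper38, helper40),
* the dimension formula S20 (helper74 and the S20 team).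
-/

set_option autoImplicit false
open ModularCurve

namespace Fermat.Agent.S21

theorem result (N : ℕ) [NeZero N] :
    Function.Injective (ModularCurve.periodHomPair N)
      ∧ LinearMap.range (ModularCurve.periodHomPair N)
          = ModularCurve.Period.parabolicHoms ℂ (CongruenceSubgroup.Gamma0 N) ℂ :=
  result_of_dimension_count N (partE1 N) (Fermat.Agent.S20.result N)

end Fermat.Agent.S21
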