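-- Statement S57 (row 51): patching, descent step.
-- Assembly of: H51 (abstract: maximal depth over a local ring whose maximal ideal has few generators
-- implies free), H90 (the regular sequence X_0, .., X_(r-1), ϖ on the power series ring),
-- H93 (the patching level: transport of the regular sequence along φ, and the final descent).
import Fermat.Statements.S57
import Fermat.Agent.S57.H51_FreeOfRegular
import Fermat.Agent.S57.H90_PowerSeriesRegular
import Fermat.Agent.S57.H93_Concrete

set_option autoImplicit false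
open Algebra Algebra.PatchingLevel

namespace Fermat.Agent.S57

theorem result
    {𝒪 : Type} [CommRing 𝒪] [IsDomain 𝒪] [IsDiscreteValuationRing 𝒪]
    {r : ℕ} {R : Type} [CommRing R] [Algebra 𝒪 R]
    {M : Type} [AddCommGroup M] [Module R M] [Nontrivial M]
    (L : Algebra.PatchingLevel 𝒪 r R M ⊥) :
    Module.Free R M ∧ Module.annihilator R M = ⊥ ∧
      RingHom.ker L.ψ = Ideal.span (Set.range fun i : Fin r => L.φ (MvPowerSeries.X i)) := by
  classical
  obtain ⟨ϖ, hϖ⟩ := IsDiscreteValuationRing.exists_irreducible 𝒪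
  have hmax : IsLocalRing.maximalIdeal 𝒪 = Ideal.span {ϖ} := hϖ.maximalIdeal_eq
  have hϖ0 : ϖ ≠ 0 := hϖ.ne_zero
  -- the regular sequence on the power series ring, transported to `N` along `φ`
  have hx : RingTheory.Sequence.IsWeaklyRegular (MvPowerSeries (Fin r) 𝒪) (H90.xList 𝒪 r ϖ) :=
    H90.isWeaklyRegular_xList hϖ0
  have hy : RingTheory.Sequence.IsWeaklyRegular L.N ((H90.xList 𝒪 r ϖ).map L.φ) :=
    H93.isWeaklyRegular_map_phi L hx
  have hymem : ∀ a ∈ (H90.xList 𝒪 r ϖ).map L.φ,
      a ∈ IsLocalRing.maximalIdeal (MvPowerSeries (Fin r) 𝒪) := by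
    intro a ha
    obtain ⟨b, hb, rfl⟩ := List.mem_map.mp ha
    exact H93.algHom_mem_maximalIdeal L.φ (H90.mem_maximalIdeal_of_mem_xList hmax b hb)
  have hfin : Module.Finite (MvPowerSeries (Fin r) 𝒪) L.N := H93.finite_N L
  -- generators of the maximal ideal
  have hS : Ideal.span (((H90.xList 𝒪 r ϖ).toFinset : Finset (MvPowerSeries (Fin r) 𝒪)) : Set _) =
      IsLocalRing.maximalIdeal (MvPowerSeries (Fin r) 𝒪) := by
    rw [← H90.ofList_xList_eq_maximalIdeal hmax]
    congr 1
    ext a
    simp
  have hcard : (H90.xList 𝒪 r ϖ).toFinset.card ≤ ((H90.xList 𝒪 r ϖ).map L.φ).length := by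
    rw [List.length_map]
    exact List.toFinset_card_le _
  have hfree : Module.Free (MvPowerSeries (Fin r) 𝒪) L.N :=
    H51.free_of_isWeaklyRegular _ hS _ hymem hy hcard
  exact H93.result_of_free L hfree

end Fermat.Agent.S57
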