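import Fermat.Statements.S23
import Fermat.Agent.S23.H22_GS4
import Fermat.Agent.S23.H77_OfGS
import Fermat.Agent.S23.H96_DhatNeZero

set_option autoImplicit false
open CuspForm

namespace Fermat.Agent.S23

theorem result (N : ℕ) [NeZero N] : CuspForm.HasIntegralStructure N 2 :=
  H77.hasIntegralStructure_of_GS N
    (H22.galois_stable_qCoeff_of_Dhat N (H96.Dhat_ne_zero N))

end Fermat.Agent.S23
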