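import Fermat.Statements.S34
import Fermat.Agent.S34.H91_Chain3
import Fermat.Agent.BAD.H23_TotMod

set_option autoImplicit false
set_option autoImplicit false
open IsLocalRing
open CuspForm CuspForm.HeckeGaloisRepDatum

namespace Fermat.Agent.S34

/-- The law of total conservation for the modular datum of level `M q` (helper23's `tot_mod`
at helper82's identification (D)). -/
theorem stmt_TotMod_S34 : Fermat.Agent.BAD.H91.Stmt_TotMod :=
  fun A q M a b hab hq _ _ hA hqM ht =>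
    Fermat.Agent.BAD.H23.tot_mod A q M a b hab hq hA hqM ht
      (Fermat.Agent.BAD.H82.redField_eq_fullC q M a b hab hq A hA)

theorem result
    {𝒪 : Type} [CommRing 𝒪] [IsDomain 𝒪] [IsDiscreteValuationRing 𝒪]
    [IsAdicComplete (maximalIdeal 𝒪) 𝒪] [Finite (ResidueField 𝒪)] [CharZero 𝒪]
    {p : ℕ} (hp : p.Prime) (hp𝒪 : (p : 𝒪) ∈ maximalIdeal 𝒪)
    {N : ℕ} [NeZero N] {S : Finset ℕ} (hpS : p ∈ S) (hNS : ∀ q : ℕ, q.Prime → q ∣ N → q ∈ S)
    {θ : CuspForm.heckeAlgebra N 2 (↑S : Set ℕ) →+* ResidueField 𝒪}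
    {T : Type} [CommRing T] [IsLocalRing T] [IsNoetherianRing T]
    [IsAdicComplete (maximalIdeal T) T] [Algebra 𝒪 T] [IsLocalHom (algebraMap 𝒪 T)]
    [Module.Finite 𝒪 T] [Module.Free 𝒪 T]
    (H : CuspForm.HeckeGaloisRepDatum N (↑S : Set ℕ) 𝒪 θ T)
    (q : ℕ) (hq : q.Prime) (hqp : q ≠ p) (hqN : q ∣ N) (hq2 : ¬ q ^ 2 ∣ N) :
    H.ρ.IsUnipotentOnInertiaAt q := by
  exact Fermat.Agent.S34.H91.s34_of_totMod stmt_TotMod_S34 hp hp𝒪 hpS hNS H q hq hqp hqN hq2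

end Fermat.Agent.S34
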