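-- S53: existence of the universal deformation ring (`GaloisRep.nonempty_deformationRingData`).
-- Route: rigidified (normalized) lifts, level-wise universal pairs of maximal cardinality,
-- inverse limit of the tower, universal property by gluing.
import Fermat.Statements.S53
import Fermat.Agent.S53.ExistsTower
import Fermat.Agent.S53.Limit
import Fermat.Agent.S53.Univ

set_option autoImplicit false
set_option autoImplicit false
open GaloisRep

namespace Fermat.Agent.S53

theorem result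
    (𝒪 : Type) [CommRing 𝒪] [IsDomain 𝒪] [IsDiscreteValuationRing 𝒪]
    [IsAdicComplete (IsLocalRing.maximalIdeal 𝒪) 𝒪] [Finite (IsLocalRing.ResidueField 𝒪)]
    (ρbar : ResidualGaloisRep (IsLocalRing.ResidueField 𝒪))
    (𝒟 : ∀ ⦃A : Type⦄ [CommRing A] [IsLocalRing A] [Algebra 𝒪 A], GaloisRepAdic A → Prop)
    (habs : ρbar.IsAbsolutelyIrreducible)
    (h𝒟 : GaloisRep.IsDeformationCondition 𝒪 𝒟)
    (hbar : 𝒟 (GaloisRepAdic.ofResidualGaloisRep ρbar))
    (hfin : GaloisRep.TangentFinite 𝒪 ρbar 𝒟) :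
    Nonempty (GaloisRep.DeformationRingData 𝒪 ρbar 𝒟) := by
  obtain ⟨N⟩ := exists_normData (𝒪 := 𝒪) habs
  obtain ⟨T⟩ := exists_univTower h𝒟 hbar hfin N
  obtain ⟨R, _, _, _, _, _, _, π, hres, hπs, -, hπk, hπl⟩ :=
    Limit.exists_limit 𝒪 T.D (fun j => inferInstance) T.res_surj T.u T.u_surj T.ker_u T.lev
  exact Univ.nonempty_of_limit 𝒪 ρbar 𝒟 h𝒟 habs N T R π hres hπs hπk hπl

end Fermat.Agent.S53
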