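import Fermat.Statements.S33
import Fermat.Agent.Zm.S33_L06_001
import Fermat.Agent.Zm.S33_L12_000
import Fermat.Agent.Zm.S33_L07_001
import Fermat.Agent.Zm.S33_L10_000
import Fermat.Agent.Zm.S33_L04_002
import Fermat.Agent.Zm.S33_L04_001
import Fermat.Agent.Zm.S33_L05_001
import Fermat.Agent.Zm.S33_L08_000

set_option autoImplicit false
variable {p : ℕ} {N : ℕ} [NeZero N] {S : Finset ℕ}
  {𝒪 : Type} [CommRing 𝒪] [IsDomain 𝒪] [IsDiscreteValuationRing 𝒪]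
  [IsAdicComplete (IsLocalRing.maximalIdeal 𝒪) 𝒪]
  {θ : CuspForm.heckeAlgebra N 2 (↑S : Set ℕ) →+* IsLocalRing.ResidueField 𝒪}
  {T : Type} [CommRing T] [IsLocalRing T] [IsNoetherianRing T]
  [IsAdicComplete (IsLocalRing.maximalIdeal T) T] [Algebra 𝒪 T] [IsLocalHom (algebraMap 𝒪 T)]
  [Module.Finite 𝒪 T] [Module.Free 𝒪 T]
open CuspForm CuspForm.HeckeGaloisRepDatum

namespace Fermat.Agent.S33

/-- **(T3)** at all levels: the inertia group at `p` acts through the mod `p` cyclotomic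
character on the `p`-new classes of `J₀(M p)[p] ∩ K1(p)`. -/
theorem stmt_TorsOrdNew_S33 (M p : ℕ) [NeZero M] [NeZero p] :
    Fermat.Agent.S33.New.H54.Stmt_TorsOrdNew M p :=
  Fermat.Agent.S33.New.H86.torsOrdNew_all Fermat.Agent.BADP.H19.stmt_ABSP
    Fermat.Agent.S33.New.H9.stmt_NormWq Fermat.Agent.S33.New.H28.stmt_Red2
    Fermat.Agent.S33.New.H86.stmt_PW1 Fermat.Agent.S33.New.H51.stmt_Desc3 M p

/-- The `p`-new case of S33 over a complete discrete valuation ring. -/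
theorem stmt_OrdNew_S33 : Fermat.Agent.R.Stmt_OrdNew :=
  Fermat.Agent.S33.New.H54.ordNew_of_tors (fun M p _ _ => stmt_TorsOrdNew_S33 M p)

theorem result
    [Finite (IsLocalRing.ResidueField 𝒪)] [CharZero 𝒪]
    (hp : p.Prime) (hp2 : p ≠ 2) (hp𝒪 : (p : 𝒪) ∈ IsLocalRing.maximalIdeal 𝒪) (hN : p ∣ N ∧ ¬ p ^ 2 ∣ N)
    (hNS : ∀ q : ℕ, q.Prime → q ∣ N → q ∈ S)
    (H : CuspForm.HeckeGaloisRepDatum N (↑S : Set ℕ) 𝒪 θ T)
    (hres : (GaloisRepAdic.ofResidualGaloisRep H.ρ.residual).IsOrdinaryAt p) :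
    H.ρ.IsOrdinaryAt p :=
  Fermat.Agent.S33.H86.of_S19_ordNew
    (fun N _ ℓ _ hℓN k => Fermat.Agent.S19.result N ℓ hℓN k)
    stmt_OrdNew_S33 hp hp2 hp𝒪 hN hNS H hres

end Fermat.Agent.S33
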