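import Fermat.Statements.S02

set_option autoImplicit false
open FreyPackage

namespace Fermat.Agent.S02

/-- Core case: coprime, `b` even. Normalise the sign so that `a ≡ 3 mod 4`. -/
theorem core (a b c : ℤ) (ha : a ≠ 0) (hb : b ≠ 0) (hc : c ≠ 0) (p : ℕ) (pp : p.Prime)
    (hp5 : 5 ≤ p) (H : a ^ p + b ^ p = c ^ p) (hgcd : gcd a b = 1) (hbeven : (2 : ℤ) ∣ b) :
    Nonempty FreyPackage := by
  have hpodd : Odd p := pp.odd_of_ne_two (by omega)
  have haodd : ¬ (2 : ℤ) ∣ a := by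
    intro h2
    have h : (2 : ℤ) ∣ gcd a b := dvd_gcd h2 hbeven
    rw [hgcd] at h
    norm_num at h
  have hb2 : ((b : ℤ) : ZMod 2) = 0 := (ZMod.intCast_zmod_eq_zero_iff_dvd b 2).2 hbeven
  have h4 : a % 4 = 1 ∨ a % 4 = 3 := by omega
  rcases h4 with h1 | h3
  · refine ⟨⟨-a, -b, -c, neg_ne_zero.2 ha, neg_ne_zero.2 hb, neg_ne_zero.2 hc, p, pp, hp5,
      ?_, ?_, ?_, ?_⟩⟩
    · rw [hpodd.neg_pow, hpodd.neg_pow, hpodd.neg_pow, ← H]; ring
    · rw [gcd_neg, neg_gcd]; exact hgcd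
    · have : ((-a : ℤ) : ZMod 4) = (((-a) % 4 : ℤ) : ZMod 4) := (ZMod.intCast_mod (-a) 4).symm
      have h' : (-a) % 4 = 3 := by omega
      rw [this, h']; rfl
    · push_cast; rw [hb2]; simp
  · refine ⟨⟨a, b, c, ha, hb, hc, p, pp, hp5, H, hgcd, ?_, hb2⟩⟩
    have : ((a : ℤ) : ZMod 4) = ((a % 4 : ℤ) : ZMod 4) := (ZMod.intCast_mod a 4).symm
    rw [this, h3]; rfl

/-- Coprime case: move the even one of `a, b, c` into the `b` slot. -/
theorem coprime_case (a b c : ℤ) (ha : a ≠ 0) (hb : b ≠ 0) (hc : c ≠ 0) (p : ℕ) (pp : p.Prime)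
    (hp5 : 5 ≤ p) (H : a ^ p + b ^ p = c ^ p) (hgcd : gcd a b = 1) :
    Nonempty FreyPackage := by
  have hpodd : Odd p := pp.odd_of_ne_two (by omega)
  have hppos : 0 < p := by omega
  by_cases hb2 : (2 : ℤ) ∣ b
  · exact core a b c ha hb hc p pp hp5 H hgcd hb2
  by_cases ha2 : (2 : ℤ) ∣ a
  · exact core b a c hb ha hc p pp hp5 (by rw [add_comm]; exact H) (by rw [gcd_comm]; exact hgcd) ha2
  -- both odd, so `c` is even
  have hc2 : (2 : ℤ) ∣ c := by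
    have hao : Odd a := by rw [← Int.not_even_iff_odd, even_iff_two_dvd]; exact ha2
    have hbo : Odd b := by rw [← Int.not_even_iff_odd, even_iff_two_dvd]; exact hb2
    have hce : Even (c ^ p) := by rw [← H]; exact (hao.pow).add_odd (hbo.pow)
    have : Even c := (Int.even_pow.1 hce).1
    exact even_iff_two_dvd.1 this
  refine core a (-c) (-b) ha (neg_ne_zero.2 hc) (neg_ne_zero.2 hb) p pp hp5 ?_ ?_ ((dvd_neg).2 hc2)
  · rw [hpodd.neg_pow, hpodd.neg_pow, ← H]; ring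
  · rw [gcd_neg, ← gcdab_eq_gcdac hppos H]; exact hgcd

theorem result (a b c : ℤ) (ha : a ≠ 0) (hb : b ≠ 0) (hc : c ≠ 0) (p : ℕ) (pp : p.Prime) (hp5 : 5 ≤ p) (H : a ^ p + b ^ p = c ^ p) : Nonempty FreyPackage := by
  have hppos : 0 < p := by omega
  have hp0 : p ≠ 0 := hppos.ne'
  set d : ℕ := Int.gcd a b with hd
  have hdpos : 0 < d := Int.gcd_pos_of_ne_zero_left b ha
  have hd0 : (d : ℤ) ≠ 0 := by exact_mod_cast hdpos.ne'
  have hda : (d : ℤ) ∣ a := Int.gcd_dvd_left a b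
  have hdb : (d : ℤ) ∣ b := Int.gcd_dvd_right a b
  have hdc : (d : ℤ) ∣ c := by
    rw [← Int.pow_dvd_pow_iff hp0, ← H]
    exact dvd_add (pow_dvd_pow_of_dvd hda p) (pow_dvd_pow_of_dvd hdb p)
  obtain ⟨a', ha'⟩ := hda
  obtain ⟨b', hb'⟩ := hdb
  obtain ⟨c', hc'⟩ := hdc
  have ha'0 : a' ≠ 0 := by rintro rfl; exact ha (by rw [ha']; simp)
  have hb'0 : b' ≠ 0 := by rintro rfl; exact hb (by rw [hb']; simp)
  have hc'0 : c' ≠ 0 := by rintro rfl; exact hc (by rw [hc']; simp)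
  have H' : a' ^ p + b' ^ p = c' ^ p := by
    have hdp : ((d : ℤ) ^ p) ≠ 0 := pow_ne_zero p hd0
    apply mul_left_cancel₀ hdp
    rw [mul_add, ← mul_pow, ← mul_pow, ← mul_pow, ← ha', ← hb', ← hc']
    exact H
  have hgcd' : gcd a' b' = 1 := by
    have h1 : Int.gcd a' b' = 1 := by
      have h2 : Int.gcd (a / (d : ℤ)) (b / (d : ℤ)) = 1 := Int.gcd_div_gcd_div_gcd hdpos
      have e1 : a / (d : ℤ) = a' := by rw [ha']; exact Int.mul_ediv_cancel_left _ hd0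
      have e2 : b / (d : ℤ) = b' := by rw [hb']; exact Int.mul_ediv_cancel_left _ hd0
      rw [e1, e2] at h2
      exact h2
    rw [← Int.coe_gcd, h1]; rfl
  exact coprime_case a' b' c' ha'0 hb'0 hc'0 p pp hp5 H' hgcd'

end Fermat.Agent.S02
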