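import Fermat.Statements.S05
import Fermat.Agent.S05.Core
import Fermat.Agent.S05.M1
import Fermat.Agent.S05.H6_M1Cases
import Fermat.Agent.S05.Transfer
import Fermat.Agent.S05.Inertia
import Fermat.Agent.S05.Arith
import Fermat.Agent.S05.Wiring

set_option autoImplicit false
open WeierstrassCurve WeierstrassCurve.Affine WeierstrassCurve.Affine.Point
open CuspForm ModularFormClass UpperHalfPlane
open FreyPackage

namespace Fermat.Agent.S05

theorem result (P : FreyPackage) {q : ℕ} (hq : q.Prime) (hq2 : q ≠ 2) (hqp : q ≠ P.p) : P.GaloisRepUnramifiedAt q :=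
  wiring (core_of_M1 fun _ _ _ => M1.M1_of_cases H6.M1_E0E0 H6.M1_E0Cp) transfer inertia arith
    P hq hq2 hqp

end Fermat.Agent.S05
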