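-- S09 (row 8): Mazur for the Frey curve: the mod-p representation is irreducible.
-- Glue (Fermat/Agent/S09/Glue.lean): S13 (reducible => cofixed line) + S10 (p = 5, 7, 13)
-- + S11 (p = 11) + S12 (p >= 17).
import Fermat.Statements.S09
import Fermat.Agent.Zm.S09_L01_002
import Fermat.Agent.Zm.S09_L02_000
import Fermat.Agent.S12

set_option autoImplicit false
open WeierstrassCurve WeierstrassCurve.Affine WeierstrassCurve.Affine.Point
open CuspForm ModularFormClass UpperHalfPlane
open FreyPackage

namespace Fermat.Agent.S09

theorem result (P : FreyPackage) : GaloisRepIsIrreducible (K := AlgebraicClosure ℚ) ℚ P.freyCurve P.p := by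
  exact glue_of_cofixed P (Fermat.Agent.S13.result P) (Fermat.Agent.S10.result P)
    (Fermat.Agent.S11.result P) (Fermat.Agent.S12.result P)

end Fermat.Agent.S09
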