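-- Statement S10: no Galois-stable cofixed line for the Frey curve when p ∈ {5, 7, 13}.
-- Proof: Fermat's Last Theorem for the exponents 5, 7, 13 (Kummer: the ring of integers of the
-- p-th cyclotomic field is a PID and Kummer's lemma holds), so no Frey package with such p exists.
import Fermat.Statements.S10
import Fermat.Agent.Lib.FLTp.CaseI
import Fermat.Agent.Lib.FLTp.CaseII
import Fermat.Agent.Lib.FLTp.Glue
import Fermat.Agent.Lib.KummerLemma5
import Fermat.Agent.Lib.KummerLemma7
import Fermat.Agent.Lib.KummerLemma13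
import Fermat.Agent.Lib.CycloPID7
import Fermat.Agent.Lib.Cyclo13PID

set_option autoImplicit false
open WeierstrassCurve WeierstrassCurve.Affine WeierstrassCurve.Affine.Point
open CuspForm ModularFormClass UpperHalfPlane
open FreyPackage

namespace Fermat.Agent.S10

open Fermat.Agent.Lib.FLTp

/-- No Frey package has exponent `5`. -/
theorem no_frey_five (P : FreyPackage) (hp : P.p = 5) : False := by
  have : Fact (Nat.Prime 5) := ⟨by norm_num⟩
  have := Glue.isCyclotomicExtension_cyclotomicField 5
  refine Glue.frey_false P 5 hp CaseI.caseI_five ?_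
  exact CaseII.caseII (p := 5) (CyclotomicField 5 ℚ) (by norm_num)
    (IsCyclotomicExtension.Rat.five_pid (CyclotomicField 5 ℚ))
    (fun u ⟨n, hn⟩ => Fermat.Agent.Lib.KummerLemma5.kummer_lemma_five (CyclotomicField 5 ℚ) u n hn)

/-- No Frey package has exponent `7`. -/
theorem no_frey_seven (P : FreyPackage) (hp : P.p = 7) : False := by
  have : Fact (Nat.Prime 7) := ⟨by norm_num⟩
  have := Glue.isCyclotomicExtension_cyclotomicField 7
  refine Glue.frey_false P 7 hp CaseI.caseI_seven ?_
  exact CaseII.caseII (p := 7) (CyclotomicField 7 ℚ) (by norm_num)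
    (Fermat.Agent.Lib.CycloPID.seven_pid (CyclotomicField 7 ℚ))
    (fun u ⟨n, hn⟩ => Fermat.Agent.Lib.KummerLemma7.kummer_lemma_seven (CyclotomicField 7 ℚ) u n hn)

/-- No Frey package has exponent `13`. -/
theorem no_frey_thirteen (P : FreyPackage) (hp : P.p = 13) : False := by
  have : Fact (Nat.Prime 13) := ⟨by norm_num⟩
  have := Glue.isCyclotomicExtension_cyclotomicField 13
  refine Glue.frey_false P 13 hp CaseI.caseI_thirteen ?_
  exact CaseII.caseII (p := 13) (CyclotomicField 13 ℚ) (by norm_num)
    (Fermat.Agent.Lib.Cyclo13PID.pid (K := CyclotomicField 13 ℚ))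
    (fun u ⟨n, hn⟩ =>
      Fermat.Agent.Lib.KummerLemma13.kummer_lemma_thirteen (CyclotomicField 13 ℚ) u n hn)

theorem result (P : FreyPackage) (hp : P.p = 5 ∨ P.p = 7 ∨ P.p = 13) : ¬ HasGaloisStableCofixedLine (K := AlgebraicClosure ℚ) ℚ P.freyCurve P.p := by
  intro _
  rcases hp with hp | hp | hp
  · exact no_frey_five P hp
  · exact no_frey_seven P hp
  · exact no_frey_thirteen P hp

end Fermat.Agent.S10
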