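-- Statement S11 (row 10): no Galois-stable cofixed line on the Frey curve when `p = 11`.
-- Proof: a Frey package with `p = 11` contradicts Fermat's Last Theorem for exponent 11, which
-- is proved directly (first case: Sophie Germain with `q = 23`; second case: Kummer's descent in
-- `ℤ[ζ₁₁]`, which is a PID and satisfies Kummer's lemma).
import Fermat.Statements.S11
import Fermat.Agent.Lib.FLTp.CaseI
import Fermat.Agent.Lib.FLTp.CaseII
import Fermat.Agent.Lib.CyclotomicPIDEleven
import Fermat.Agent.Lib.KummerLemma11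

set_option autoImplicit false
open WeierstrassCurve WeierstrassCurve.Affine WeierstrassCurve.Affine.Point
open CuspForm ModularFormClass UpperHalfPlane
open FreyPackage

namespace Fermat.Agent.S11

/-- Fermat's Last Theorem for exponent `11` (coprime form over `ℤ`). -/
theorem flt_eleven_coprime (a b c : ℤ) (h : a ^ 11 + b ^ 11 = c ^ 11) (hab : IsCoprime a b)
    (h0 : a * b * c ≠ 0) : False := by
  have : Fact (Nat.Prime 11) := ⟨by norm_num⟩
  have : IsCyclotomicExtension {11} ℚ (CyclotomicField 11 ℚ) :=
    CyclotomicField.isCyclotomicExtension 11 ℚ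
  by_cases hdvd : ((11 : ℕ) : ℤ) ∣ a * b * c
  · exact Fermat.Agent.Lib.FLTp.CaseII.caseII (p := 11) (CyclotomicField 11 ℚ) (by norm_num)
      (Fermat.Agent.Lib.CyclotomicPID.eleven_pid _)
      (fun u ⟨n, hn⟩ => Fermat.Agent.Lib.KummerLemma11.kummer_lemma_eleven _ u n hn)
      a b c h hab hdvd h0
  · exact Fermat.Agent.Lib.FLTp.CaseI.caseI_eleven a b c h hab hdvd

theorem result (P : FreyPackage) (hp : P.p = 11) : ¬ HasGaloisStableCofixedLine (K := AlgebraicClosure ℚ) ℚ P.freyCurve P.p := by
  intro _
  have hFLT := P.hFLT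
  rw [hp] at hFLT
  have hab : IsCoprime P.a P.b := by
    rw [Int.isCoprime_iff_gcd_eq_one]
    have h := P.hgcdab
    rw [← Int.coe_gcd] at h
    exact_mod_cast h
  exact flt_eleven_coprime P.a P.b P.c hFLT hab P.habc0

end Fermat.Agent.S11
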