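import Fermat.Statements.S18
import Fermat.Agent.S18.Final
import Fermat.Agent.RED.KD.H22_KD
import Fermat.Agent.RED.H76_DR2

/-!
# S18: prime-to-`ℓ` torsion of `J₀(N)` injects under reduction modulo `ℓ ∤ N`

Final wiring (helper17): `S18.s18_of_DR2_KD` (route C torsion injectivity from the Deuring
reduction datum, descent from the tame levels `N, 2N, 3N` by Kummer descent) with
helper76's `stmt_DR2` (G-RED: charts, conservation, genus) and helper22's `stmt_KD`.
-/

set_option autoImplicit false
open ModularCurve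

namespace Fermat.Agent.S18

theorem result (N : ℕ) [NeZero N] {ℓ : ℕ}
    [Fact ℓ.Prime] (hℓN : ¬ ℓ ∣ N) (A : ValuationSubring (AlgebraicClosure ℚ)) (hA : A.LiesOverPrime ℓ)
    (h : ModularCurve.ReductionInputsModL A N) (m : ℕ) (hm : ¬ ℓ ∣ m) (z : ModularCurve.JZero N)
    (hmz : m • z = 0) (hz : ModularCurve.reductionModL A N z = 0) :
    z = 0 :=
  s18_of_DR2_KD Fermat.Agent.RED.H76.stmt_DR2 Fermat.Agent.RED.KD.H22.stmt_KD N hℓN A hA h m hm z
    hmz hz

end Fermat.Agent.S18
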