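import Fermat.Statements.S16
import Fermat.Agent.S16.Final
import Fermat.Agent.Betti.H41_TorsLiftFinal
import Fermat.Agent.Betti.H21_BasisGe
import Fermat.Agent.Betti.H77_Count0

/-!
# S16: `#(𝕋 / I) = num((p - 1) / 12)` (Mazur), cluster M (coordinator helper40)

* upper bound: Eisenstein series `E'` (helper6), local bounds at every prime `ℓ`
  (helper32, helper55, helper26, helper21, helper15, helper79, helper8, helper45, helper38);
* lower bound: the Shimura class `χ(γ) = log (d mod p)` (helper40), Betti Hecke operators and
  Eichler–Shimura (helper20, helper76, helper38), TORSLIFT (helper77, helper41, helper21);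
* algebra and wiring: helper44, helper40.
-/

set_option autoImplicit false
open ModularCurve CuspForm
open ModularCurve

namespace Fermat.Agent.S16

theorem result
    (p : ℕ) [Fact p.Prime] :
    Nat.card (↥(heckeLatticeAlgebra p ∅) ⧸
        Ideal.map ((latticeRestrictHom p ∅).toRingHom.comp (heckeEvalForms p 2))
          (eisensteinIdeal p)) =
      eisensteinNumerator p := by
  have : NeZero p := ⟨(Fact.out : p.Prime).ne_zero⟩
  exact S16_of_torsLift p (fun _ =>
    Fermat.Agent.Betti.H41.torsLift_of_exists p
      (Fermat.Agent.Betti.H21.exists_basis_ge p)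
      (fun ℓ _ => Fermat.Agent.Betti.H77.card_killsPE_le p ℓ)
      (eisensteinNumerator p))

end Fermat.Agent.S16
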