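import Fermat.Statements.S24
import Fermat.Agent.S24.Asm.One
import Fermat.Agent.S24.Closure.Final
import Fermat.Agent.S24.H72_FF1b

set_option autoImplicit false
open ModularCurve

namespace Fermat.Agent.S24

theorem result (N : ℕ) [NeZero N]
    [AlgebraicCurve.HasCanonicalDivisor (K := AlgebraicClosure ℚ) (F := ↥(ModularCurve.modularFunctionFieldBar N))] :
    (AlgebraicCurve.genus (AlgebraicClosure ℚ) ↥(ModularCurve.modularFunctionFieldBar N) : ℚ)
      = ModularCurve.genusFormula N := by
  have hzeros : H59.ZerosStmt Kbar (FN N) := fun x hx _ => ff_zeros x hx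
  rcases Nat.lt_or_ge 1 N with hN | hN
  · exact asm_genus_of_modClosure N hN (modClosure N) hzeros
  · have h1 : N = 1 := le_antisymm hN (Nat.pos_of_ne_zero (NeZero.ne N))
    exact asm_genus_one N h1 hzeros

end Fermat.Agent.S24
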