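import Fermat.Statements.S26
import Fermat.Agent.S26.Dry.H95_DryFinal
import Fermat.Agent.S26.C.X.H6_PrigFinal

/-!
# S26 (row 25): an abelian scheme of relative dimension `g` over an algebraically closed field
has exactly `n ^ (2 g)` points of `n`-torsion, `n` invertible

Plan `NOTES/plan/S26.md` (owner-planner helper27): route without cohomology, by the growth of the
spaces `L(m D)` and the theorem of the cube on a product of curves (`C.X.Stmt_PRIG`, helper6).
-/

set_option autoImplicit false
set_option autoImplicit false
open CategoryTheory CategoryTheory.Limits AlgebraicGeometry NeronModelInfra GoodReductionJacobian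
universe u
open GoodReductionJacobian GoodReductionJacobian.RelativeGroupLaw

namespace Fermat.Agent.S26

theorem result
    (K : Type u) [Field K] [IsAlgClosed K] {A : Scheme.{u}} (f : A ⟶ Spec (CommRingCat.of K))
    (L : RelativeGroupLaw K f) (hc : L.IsCommutative) (hA : AbelianSchemePropertyBundle K f)
    (g : ℕ) [SmoothOfRelativeDimension g f] (n : ℕ) (hn : (n : K) ≠ 0) :
    Nat.card {x : SchemeHomOver (𝟙 (Spec (CommRingCat.of K))) f //
        L.IsTorsionPoint (𝟙 (Spec (CommRingCat.of K))) n x} = n ^ (2 * g) := by
  exact Fermat.Agent.S26.Dry.H95.result_of_prig Fermat.Agent.S26.C.X.H6.stmt_PRIG K f L hc hA g n hn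

end Fermat.Agent.S26
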