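-- Statement S37 (row 36): Eichler–Shimura congruence relation (`SpecializationExists` for `J₀(N)`).
-- Proof: package G-RED (NOTES/plan/G_RED.md), final assembly `Fermat.Agent.RED.H36.s37_of`.
import Fermat.Statements.S37
import Fermat.Agent.RED.H36_RM
import Fermat.Agent.RED.H36_EQ
import Fermat.Agent.RED.H51_NDESC
import Fermat.Agent.RED.KD.H22_KD
import Fermat.Agent.RED.ES.H95_ES3a
import Fermat.Agent.RED.H76_DR2Haupt
import Fermat.Agent.RED.H70_Mod2Series
import Fermat.Agent.RED.H29_Mod3Series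

set_option autoImplicit false
open ModularCurve

namespace Fermat.Agent.S37

/-- The Deuring reduction datum at the tame levels (package DR2 of G-RED). -/
theorem stmt_DR2_final : Fermat.Agent.RED.Stmt_DR2 :=
  Fermat.Agent.RED.H76.stmt_DR2_of
    (Fermat.Agent.RED.H76.stmt_Haupt2_of_ring Fermat.Agent.RED.H70.hZ2
      Fermat.Agent.RED.H70.hZ2_order Fermat.Agent.RED.H70.hZ2_leadingCoeff
      Fermat.Agent.RED.H70.hZ2_ident Fermat.Agent.RED.H70.hZ2_ident')
    (Fermat.Agent.RED.H76.stmt_Haupt3_of_ring Fermat.Agent.RED.H29.hZ3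
      Fermat.Agent.RED.H29.hZ3_order_neg Fermat.Agent.RED.H29.hZ3_leadingCoeff
      Fermat.Agent.RED.H29.hZ3_one Fermat.Agent.RED.H29.hZ3_two)

theorem result (N p : ℕ) [NeZero N] (hcomm : ModularCurve.HeckeOperatorsCommuteBar N) : letI := ModularCurve.heckeModuleBar N; ∀ (_ : SMulCommClass (AlgebraicClosure ℚ ≃ₐ[ℚ] AlgebraicClosure ℚ) ModularCurve.HeckeAlg (ModularCurve.JZero N)), ModularCurve.SpecializationExists (K := ℚ) (L := AlgebraicClosure ℚ) N p (ModularCurve.JZero N) :=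
  Fermat.Agent.RED.H36.s37_of stmt_DR2_final Fermat.Agent.RED.H51.stmt_NDESC
    Fermat.Agent.RED.KD.H22.stmt_KD Fermat.Agent.RED.H36.stmt_EQ
    Fermat.Agent.RED.H95.stmt_ES3 N p hcomm

end Fermat.Agent.S37
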