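-- Statement S44 (row 38): Mazur–Ribet, Frey-curve form: `p` can be removed from a conductor level.
-- helper93 (row owner) + the BAD_p team; plan `NOTES/plan/L_S44.md`.
-- frozen S44 ⇐ (c) OLD (helper75, helper35, helper78) + (d) SLOPE = EIS-MOD (helper18) + H-DROP
-- (helper74) + (e) RAY = RAY-MOD (helper15) + GOOD-ROOT (helper66) + (C) (helper33), with
-- MOD-P+ (helper33), ARITH-0 (helper11), KUM (helper57), EIS-ABS (helper97, helper66, helper38).
import Fermat.Statements.S44
import Fermat.Agent.Zm.S44_L16_000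

set_option autoImplicit false
open WeierstrassCurve WeierstrassCurve.Affine WeierstrassCurve.Affine.Point
open CuspForm ModularFormClass UpperHalfPlane
open FreyPackage

namespace Fermat.Agent.S44

theorem result (P : FreyPackage) {N : ℕ} (hcond : P.IsConductorLevel N) (hpN : P.p ∣ N) (hirr : GaloisRepIsIrreducible (K := AlgebraicClosure ℚ) ℚ P.freyCurve P.p) (hmod : P.ModularRepOfLevel N) : ∃ M : ℕ, M ∣ N ∧ ¬ P.p ∣ M ∧ P.ModularRepOfLevel M :=
  Fermat.Agent.S44.result_of_eisMod Fermat.Agent.BADP.H18E.stmt_EisMod P hcond hpN hirr hmod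

end Fermat.Agent.S44
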