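-- Statement S45 (row 41): if the Frey curve is modular and its mod-p representation is irreducible,
-- there is a nonzero weight-2 cusp form on Gamma0(2).
-- The statement below is byte-identical to the frozen statement FreyPackage.FermatFrozen.S45
-- (Fermat/Statements/S45.lean; the theorem FreyPackage.level_lowering_to_two); the grader
-- kernel-checks Fermat.Agent.S45.result against that frozen type.
--
-- Proof (owner-planner helper68, TOP wiring helper43, about 50 hands):
-- * `S45.H43.s45_of` (S45/H43_Final.lean): a newform of some level `N0` attached to the Frey curve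
--   (`exists_newform`), its level is a conductor level: the primes `q` with `q ^ 2 ∣ N0` are excluded
--   by Carayol's theorem in the form "NU for all exponents" (`Stmt_S36e`), the good primes by S35 +
--   Hasse; then the landed glue: S05 (unramified at `q ≠ 2, p`), S43 (Ribet), S44 (Mazur-Ribet at `p`),
--   S08 (no cusp forms of level 1);
-- * the Kummer core of exponent 2, `S36.NU.H10.nuCoreTame` (S36), and of exponent `e ≥ 3`,
--   `S45.NUE.H65.stmt_NUCoreETame` (the geometric side of S45);
-- * Ribet's level lowering for the Frey curve, `S43.result`.
import Fermat.Statements.S45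
import Fermat.Agent.Zm.S45_L04_000
import Fermat.Agent.Zm.S36_L18_000
import Fermat.Agent.Zm.S45_L12_000
import Fermat.Agent.S43

set_option autoImplicit false
open WeierstrassCurve WeierstrassCurve.Affine WeierstrassCurve.Affine.Point
open CuspForm ModularFormClass UpperHalfPlane
open FreyPackage

namespace Fermat.Agent.S45

theorem result (P : FreyPackage) (hmod : P.freyCurve.IsModular) (hirr : GaloisRepIsIrreducible (K := AlgebraicClosure ℚ) ℚ P.freyCurve P.p) : ∃ f : CuspForm (CongruenceSubgroup.Gamma0 2) 2, f ≠ 0 := by
  exact Fermat.Agent.S45.H43.s45_of Fermat.Agent.S36.NU.H10.nuCoreTame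
    Fermat.Agent.S45.NUE.H65.stmt_NUCoreETame
    (fun P _ _ hcond hq hq2 hqp hqN hirr hmod hunr =>
      Fermat.Agent.S43.result P hcond hq hq2 hqp hqN hirr hmod hunr) P hmod hirr

end Fermat.Agent.S45
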