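-- Statement S49 (row 44): lifting lemma (Deligne–Serre) for weight 2, level Γ₀(N).
import Fermat.Statements.S49
import Fermat.Agent.S49.H44_Normalize

set_option autoImplicit false
open CuspForm EisensteinWeightOne CongruenceSubgroup ModularFormClass
open FLT FLT.AbstractIntegralStructure

namespace Fermat.Agent.S49

theorem result
    {N : ℕ} [NeZero N] (h : CuspForm.HasIntegralBasis N) {a : ℕ → ℤ}
    (heig : FormalHecke.IsEigensystem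
      (fun ℓ => if ℓ ∣ N then 0 else ((chiNegThree ℓ : ℤ) : ℤ)) a)
    (hreal : CuspForm.IsLatticeRealized N a) :
    ∃ (f : CuspForm (Gamma0 N) 2) (_ : f.IsNormalizedEigenform)
      (𝔪' : Ideal (integralClosure ℤ ℂ)), 𝔪'.IsMaximal ∧
      ((3 : ℕ) : integralClosure ℤ ℂ) ∈ 𝔪' ∧
      ∀ (ℓ : ℕ) (_ : ℓ.Prime) (_ : ¬ ℓ ∣ N),
        ∃ c : integralClosure ℤ ℂ, (c : ℂ) = ModularFormClass.qCoeff f ℓ ∧
          c - (a ℓ : integralClosure ℤ ℂ) ∈ 𝔪' := by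
  obtain ⟨𝔪', χ, v, hmax, h3, hv0, hv, hχ⟩ := H44.exists_eigenform_lift h heig hreal
  obtain ⟨f, hf, hfχ⟩ := H44.exists_normalized_eigenform (χ := fun ℓ => ((χ ℓ : integralClosure ℤ ℂ) : ℂ))
    hv0 hv
  refine ⟨f, hf, 𝔪', hmax, h3, ?_⟩
  intro ℓ hℓ _
  exact ⟨χ ⟨ℓ, hℓ⟩, (hfχ ⟨ℓ, hℓ⟩).symm, hχ ⟨ℓ, hℓ⟩⟩

end Fermat.Agent.S49
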