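-- S51 (row 45): for a semistable integral Weierstrass curve, the mod-3 or the mod-5 representation
-- is irreducible.  Proof: a Galois-stable line in E[3] and one in E[5] give a rational point
-- (U, t) on the plane model t (U+27)(U+3)^3 = U (t^2+10t+5)^3 of X_0(15); its rational points have
-- t in {-40, -25/2, -10, -25/8}; the corresponding j-invariants are not semistable at 5.
import Fermat.Statements.S51
import Fermat.Agent.S51.H80_Galois
import Fermat.Agent.S51.H45_Three
import Fermat.Agent.S51.H65_Five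
import Fermat.Agent.S51.H45_X015
import Fermat.Agent.S51.H26_Semistable

set_option autoImplicit false
open WeierstrassCurve WeierstrassCurve.Affine WeierstrassCurve.Affine.Point
open CuspForm ModularFormClass UpperHalfPlane
open WeierstrassCurve

namespace Fermat.Agent.S51

theorem result (W : WeierstrassCurve ℤ) (hΔ : W.Δ ≠ 0) (hW : W.IsSemistableModel) : W.ModRepIsIrreducible 3 ∨ W.ModRepIsIrreducible 5 := by
  by_contra hcon
  rw [not_or] at hcon
  have hΔq : (W.map (Int.castRingHom ℚ)).Δ ≠ 0 := by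
    rw [H80.map_rat_Δ]; exact_mod_cast hΔ
  have hΔK : (H80.EQbar W).Δ ≠ 0 := H80.EQbar_Δ_ne_zero W hΔ
  have h2K : (2 : AlgebraicClosure ℚ) ≠ 0 := by norm_num
  obtain ⟨U, hU0, hU⟩ := H80.exists_U_of_not_irreducible_three_of W hΔ hcon.1
    (fun x hx => H45.U_of_root3 (W := (W.map (Int.castRingHom ℚ)).toAffine) hΔq (by norm_num) x hx)
  obtain ⟨t, ht0, ht⟩ := H80.exists_t_of_not_irreducible_five_of W hΔ hcon.2
    (fun x => H65.tInv (H80.EQbar W) x)
    (fun σ x => by
      have hB := H80.Bx_galois (W.map (Int.castRingHom ℚ)) σ x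
      have hp := H80.psi3_galois (W.map (Int.castRingHom ℚ)) σ x
      change σ (H65.tInv (H80.EQbar W) x) = H65.tInv (H80.EQbar W) (σ x)
      simp only [H65.tInv, H65.sInv]
      change _ = -(H80.psi3 ((W.map (Int.castRingHom ℚ)).map
          (algebraMap ℚ (AlgebraicClosure ℚ))).toAffine (σ x)) ^ 3 /
          (H80.Bx ((W.map (Int.castRingHom ℚ)).map
            (algebraMap ℚ (AlgebraicClosure ℚ))).toAffine (σ x)) ^ 4 - 11 -
          1 / (-(H80.psi3 ((W.map (Int.castRingHom ℚ)).map
            (algebraMap ℚ (AlgebraicClosure ℚ))).toAffine (σ x)) ^ 3 /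
          (H80.Bx ((W.map (Int.castRingHom ℚ)).map
            (algebraMap ℚ (AlgebraicClosure ℚ))).toAffine (σ x)) ^ 4)
      rw [hB, hp]
      simp only [map_sub, map_div₀, map_neg, map_pow, map_one, map_ofNat]
      rfl)
    (fun x hx => H65.tInv_double hΔK h2K x hx)
    (fun x hx => H65.t_of_root5 hΔK h2K x hx)
  have hΔq' : (W.Δ : ℚ) ≠ 0 := by exact_mod_cast hΔ
  have key : t * (U + 27) * (U + 3) ^ 3 = U * (t ^ 2 + 10 * t + 5) ^ 3 := by
    apply mul_left_cancel₀ hΔq'
    linear_combination t * (-hU) + U * ht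
  exact H26.not_semistable_of_t W hΔ hW t (H45.x015_points U t hU0 ht0 key) ht

end Fermat.Agent.S51
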