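import Fermat.Statements.S52
import Fermat.Agent.S52.Glue
import Fermat.Agent.S52.H88_Iso5Q

/-!
# S52: the 3-5 switch

For a semistable curve `W` there is a semistable curve `W'` with irreducible mod `3` representation
and `a_ℓ(W') ≡ a_ℓ(W) mod 5`.  `W'` is a member of the explicit family of curves `5`-congruent to
`W` (Tate normal form description), chosen with `j ≡ 1728` modulo an auxiliary prime `q ≡ 19 mod 60`
found by Frobenius density.  Plan and credits: NOTES/plan/E.md (helpers 65, 60, 61, 88, 97, 5, 7).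
-/

set_option autoImplicit false
open WeierstrassCurve WeierstrassCurve.Affine WeierstrassCurve.Affine.Point
open CuspForm ModularFormClass UpperHalfPlane
open WeierstrassCurve

namespace Fermat.Agent.S52

theorem result (W : WeierstrassCurve ℤ) (hΔ : W.Δ ≠ 0) (hW : W.IsSemistableModel) (h5 : W.ModRepIsIrreducible 5) : ∃ W' : WeierstrassCurve ℤ, W'.Δ ≠ 0 ∧ W'.IsSemistableModel ∧ W'.ModRepIsIrreducible 3 ∧ ∀ ℓ : ℕ, ℓ.Prime → W.IsGoodPrimeFor ℓ → W'.IsGoodPrimeFor ℓ → ℓ ≠ 5 → (5 : ℤ) ∣ (W'.apOfModel ℓ - W.apOfModel ℓ) := by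
  exact concl_of_iso5 H88.stmt_iso5 W hΔ hW

end Fermat.Agent.S52
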