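-- Statement S59 (row 53): modularity lifting (R = T) at p = 3, 5 for semistable curves.
-- Wiring: `S59.Final.H53.s59_of_llec0` (the R = T part, cases A/B/C, with S58 plugged in)
-- on the level optimisation `S59.LL.H40.llec0_all` (SQ, PIVOT, PIVOT3, S38, S39).
import Fermat.Statements.S59
import Fermat.Agent.Zm.S59_L15_000
import Fermat.Agent.Zm.S59_L21_000

set_option autoImplicit false
set_option autoImplicit false
open scoped WeierstrassCurve.Affine
open WeierstrassCurve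

namespace Fermat.Agent.S59

theorem result (p : ℕ) (hp : p = 3 ∨ p = 5)
    (W : WeierstrassCurve ℤ) (hΔ : W.Δ ≠ 0) (hW : W.IsSemistableModel) (hirr : W.ModRepIsIrreducible p)
    (M₀ : ℕ) [NeZero M₀] (hres₀ : W.IsResiduallyModularOfLevel p M₀)
    (hM₀ : ¬ p ^ 2 ∣ M₀)
    (hM₀3 : ∀ q : ℕ, q.Prime → q ≠ p → ¬ q ^ 3 ∣ M₀) :
    Mlc1IsModularModelOfExactConductorLevel W := by
  exact Fermat.Agent.S59.Final.H53.s59_of_llec0 Fermat.Agent.S59.LL.H40.llec0_all
    p hp W hΔ hW hirr M₀ hres₀ hM₀ hM₀3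

end Fermat.Agent.S59
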